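/-
S56 / FLAT / block F1 "Fontaine's lemma" (architect helper53): DEFINITIONS.

Abstract setting: `R` a commutative `Qb`-algebra with a family `T` of `Qb`-linear functionals which
is closed under "comultiplication": `ℓ (x * y) = ∑ i, g i x * h i y` with `g i, h i ∈ T`.
`InC F γ x` : all the functionals of the family take values of valuation `≤ γ` at `x`.

Concrete setting: `R = AddMonoidAlgebra Qb V` (measures on `V`, convolution product) and
`pair x f = ∑ v, x v * f v`.
-/
import Fermat.Agent.S56.Flat.Defs

set_option autoImplicit false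

namespace Fermat.Agent.S56.Flat.Fon

open Fermat.Agent.Lib.InertiaField

/-- A family of linear functionals closed under comultiplication, integral at `1`. -/
structure Fam (A : ValuationSubring Qb) (R : Type) [CommRing R] [Algebra Qb R] where
  /-- the functionals -/
  T : Set (R →ₗ[Qb] Qb)
  one_mem : ∀ ℓ ∈ T, ℓ 1 ∈ A
  comul : ∀ ℓ ∈ T, ∃ (ι : Type) (_ : Fintype ι) (g h : ι → R →ₗ[Qb] Qb),
    (∀ i, g i ∈ T) ∧ (∀ i, h i ∈ T) ∧ ∀ x y, ℓ (x * y) = ∑ i, g i x * h i y

/-- `x` lies in `γ · C`, `C` the lattice dual to the family. -/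
def InC {A : ValuationSubring Qb} {R : Type} [CommRing R] [Algebra Qb R] (F : Fam A R)
    (γ : A.ValueGroup) (x : R) : Prop :=
  ∀ ℓ ∈ F.T, A.valuation (ℓ x) ≤ γ

/-- the contraction factor: `max (v c) (v c ^ (p - 1) / v p)`. -/
noncomputable def mu (A : ValuationSubring Qb) (p : ℕ) (c : Qb) : A.ValueGroup :=
  max (A.valuation c) (A.valuation c ^ (p - 1) / A.valuation (p : Qb))

/-- the middle part of the binomial expansion of `(b + E) ^ p`, divided by `p * E ^ 2`. -/
def binS {R : Type} [CommRing R] (p : ℕ) (b E : R) : R :=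
  ∑ j ∈ Finset.Ico 2 p, ((p.choose j / p : ℕ) : R) * b ^ (p - j) * E ^ (j - 2)

/-- integration of the function `f` against the measure `x`, as a linear map in `x`. -/
noncomputable def pairL {V : Type} (f : V → Qb) : AddMonoidAlgebra Qb V →ₗ[Qb] Qb :=
  (Finsupp.linearCombination Qb f) ∘ₗ (AddMonoidAlgebra.coeffLinearEquiv Qb).toLinearMap

/-- integration of the function `f` against the measure `x`. -/
noncomputable def pair {V : Type} (x : AddMonoidAlgebra Qb V) (f : V → Qb) : Qb := pairL f x

end Fermat.Agent.S56.Flat.Fon
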