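/-
S56 / FLAT / F1 (helper53): the pairing between measures (`AddMonoidAlgebra Qb V`) and functions.
-/
import Fermat.Agent.S56.Flat.Fon.Defs

set_option autoImplicit false

namespace Fermat.Agent.S56.Flat.Fon

open Fermat.Agent.Lib.InertiaField

variable {V : Type}

theorem pair_def (x : AddMonoidAlgebra Qb V) (f : V → Qb) : pair x f = pairL f x := rfl

@[simp] theorem pair_single (v : V) (a : Qb) (f : V → Qb) :
    pair (AddMonoidAlgebra.single v a) f = a * f v := by
  simp [pair, pairL]

@[simp] theorem pair_zero_left (f : V → Qb) : pair (0 : AddMonoidAlgebra Qb V) f = 0 :=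
  map_zero (pairL f)

theorem pair_add_left (x y : AddMonoidAlgebra Qb V) (f : V → Qb) :
    pair (x + y) f = pair x f + pair y f := map_add (pairL f) x y

theorem pair_sub_left (x y : AddMonoidAlgebra Qb V) (f : V → Qb) :
    pair (x - y) f = pair x f - pair y f := map_sub (pairL f) x y

theorem pair_neg_left (x : AddMonoidAlgebra Qb V) (f : V → Qb) :
    pair (-x) f = - pair x f := map_neg (pairL f) x

theorem pair_smul_left (a : Qb) (x : AddMonoidAlgebra Qb V) (f : V → Qb) :
    pair (a • x) f = a * pair x f := map_smul (pairL f) a x

/-- to prove an identity which is additive in the measure, check it on the point masses -/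
theorem pair_induction {P : AddMonoidAlgebra Qb V → Prop} (x : AddMonoidAlgebra Qb V)
    (h0 : P 0) (hadd : ∀ x y, P x → P y → P (x + y))
    (hs : ∀ v a, P (AddMonoidAlgebra.single v a)) : P x :=
  AddMonoidAlgebra.induction_linear x h0 hadd hs

theorem pair_add_right (x : AddMonoidAlgebra Qb V) (f g : V → Qb) :
    pair x (f + g) = pair x f + pair x g := by
  induction x using pair_induction with
  | h0 => simp
  | hadd x y hx hy => rw [pair_add_left, hx, hy, pair_add_left, pair_add_left]; ring
  | hs v a => simp [mul_add]

theorem pair_sub_right (x : AddMonoidAlgebra Qb V) (f g : V → Qb) :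
    pair x (f - g) = pair x f - pair x g := by
  induction x using pair_induction with
  | h0 => simp
  | hadd x y hx hy => rw [pair_add_left, hx, hy, pair_add_left, pair_add_left]; ring
  | hs v a => simp [mul_sub]

@[simp] theorem pair_zero_right (x : AddMonoidAlgebra Qb V) : pair x (0 : V → Qb) = 0 := by
  induction x using pair_induction with
  | h0 => simp
  | hadd x y hx hy => rw [pair_add_left, hx, hy, add_zero]
  | hs v a => simp

theorem pair_const_mul (x : AddMonoidAlgebra Qb V) (a : Qb) (f : V → Qb) :
    pair x (fun v => a * f v) = a * pair x f := by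
  induction x using pair_induction with
  | h0 => simp
  | hadd x y hx hy => rw [pair_add_left, hx, hy, pair_add_left]; ring
  | hs v b => simp; ring

theorem pair_mul_const (x : AddMonoidAlgebra Qb V) (f : V → Qb) (a : Qb) :
    pair x (fun v => f v * a) = pair x f * a := by
  induction x using pair_induction with
  | h0 => simp
  | hadd x y hx hy => rw [pair_add_left, hx, hy, pair_add_left]; ring
  | hs v b => simp; ring

theorem pair_const (x : AddMonoidAlgebra Qb V) (a : Qb) :
    pair x (fun _ => a) = a * pair x 1 := by
  have := pair_const_mul x a 1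
  simpa using this

theorem pair_sum_right {ι : Type} (s : Finset ι) (x : AddMonoidAlgebra Qb V) (f : ι → V → Qb) :
    pair x (fun v => ∑ i ∈ s, f i v) = ∑ i ∈ s, pair x (f i) := by
  induction x using pair_induction with
  | h0 => simp
  | hadd x y hx hy => rw [pair_add_left, hx, hy, ← Finset.sum_add_distrib]; simp [pair_add_left]
  | hs v a => simp [Finset.mul_sum]

theorem pair_eq_sum [Fintype V] (x : AddMonoidAlgebra Qb V) (f : V → Qb) :
    pair x f = ∑ v, x.coeff v * f v := by
  classical
  induction x using pair_induction with
  | h0 => simp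
  | hadd x y hx hy => rw [pair_add_left, hx, hy, ← Finset.sum_add_distrib]; simp [add_mul]
  | hs v a =>
    rw [pair_single, Finset.sum_eq_single v]
    · simp
    · intro b _ hb
      simp [Ne.symm hb]
    · simp

theorem exists_pair_eq [Fintype V] (a : V → Qb) :
    ∃ x : AddMonoidAlgebra Qb V, ∀ f, pair x f = ∑ v, a v * f v :=
  ⟨AddMonoidAlgebra.ofCoeff (Finsupp.equivFunOnFinite.symm a), fun f => by
    rw [pair_eq_sum]; rfl⟩

section Mul

variable [AddCommGroup V]

@[simp] theorem pair_one (f : V → Qb) : pair (1 : AddMonoidAlgebra Qb V) f = f 0 := by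
  rw [AddMonoidAlgebra.one_def, pair_single, one_mul]

theorem pair_mul (x y : AddMonoidAlgebra Qb V) (f : V → Qb) :
    pair (x * y) f = pair x (fun u => pair y (fun v => f (u + v))) := by
  induction x using pair_induction with
  | h0 => simp
  | hadd x x' hx hx' => rw [add_mul, pair_add_left, hx, hx', pair_add_left]
  | hs u a =>
    rw [pair_single]
    induction y using pair_induction with
    | h0 => simp
    | hadd y y' hy hy' => rw [mul_add, pair_add_left, hy, hy', pair_add_left]; ring
    | hs v b => rw [AddMonoidAlgebra.single_mul_single, pair_single, pair_single]; ring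

theorem pair_mul_of_comul {ι : Type} [Fintype ι] (x y : AddMonoidAlgebra Qb V) {f : V → Qb}
    {g h : ι → V → Qb} (hf : ∀ u v, f (u + v) = ∑ i, g i u * h i v) :
    pair (x * y) f = ∑ i, pair x (g i) * pair y (h i) := by
  rw [pair_mul]
  have h1 : ∀ u, pair y (fun v => f (u + v)) = ∑ i, g i u * pair y (h i) := by
    intro u
    simp only [hf]
    rw [pair_sum_right]
    exact Finset.sum_congr rfl fun i _ => pair_const_mul y (g i u) (h i)
  simp only [h1]
  rw [pair_sum_right]
  exact Finset.sum_congr rfl fun i _ => pair_mul_const x (g i) _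

theorem pair_mapDomain {V' : Type} [AddCommGroup V'] (j : V →+ V') (x : AddMonoidAlgebra Qb V)
    (G : V' → Qb) :
    pair (AddMonoidAlgebra.mapDomainRingHom Qb j x) G = pair x (fun v => G (j v)) := by
  induction x using pair_induction with
  | h0 => simp
  | hadd x y hx hy => rw [map_add, pair_add_left, hx, hy, pair_add_left]
  | hs v a => simp

end Mul

end Fermat.Agent.S56.Flat.Fon
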