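/-
S56 / FLAT / F1 (helper53): the families of functionals attached to a model `M` on `W`
(`M.fam`, on the measures on `W`) and to `M ⊗ M` on `W × W` (`M.fam₂`).
-/
import Fermat.Agent.S56.Flat.Fon.Pair

set_option autoImplicit false

namespace Fermat.Agent.S56.Flat.Fon

open Fermat.Agent.Lib.InertiaField

/-- the family of functionals `pair · f`, `f ∈ T`. -/
noncomputable def famOf (A : ValuationSubring Qb) {V : Type} [AddCommGroup V] (T : Set (V → Qb))
    (h0 : ∀ f ∈ T, f 0 ∈ A)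
    (hco : ∀ f ∈ T, ∃ (ι : Type) (_ : Fintype ι) (g h : ι → V → Qb),
      (∀ i, g i ∈ T) ∧ (∀ i, h i ∈ T) ∧ ∀ u v, f (u + v) = ∑ i, g i u * h i v) :
    Fam A (AddMonoidAlgebra Qb V) where
  T := {ℓ | ∃ f ∈ T, ℓ = pairL f}
  one_mem := by
    rintro ℓ ⟨f, hf, rfl⟩
    have : pairL f (1 : AddMonoidAlgebra Qb V) = f 0 := pair_one f
    rw [this]
    exact h0 f hf
  comul := by
    rintro ℓ ⟨f, hf, rfl⟩
    obtain ⟨ι, hι, g, h, hg, hh, hfgh⟩ := hco f hf
    exact ⟨ι, hι, fun i => pairL (g i), fun i => pairL (h i), fun i => ⟨g i, hg i, rfl⟩,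
      fun i => ⟨h i, hh i, rfl⟩, fun x y => pair_mul_of_comul x y hfgh⟩

theorem inC_famOf_iff {A : ValuationSubring Qb} {V : Type} [AddCommGroup V] {T : Set (V → Qb)}
    {h0 : ∀ f ∈ T, f 0 ∈ A}
    {hco : ∀ f ∈ T, ∃ (ι : Type) (_ : Fintype ι) (g h : ι → V → Qb),
      (∀ i, g i ∈ T) ∧ (∀ i, h i ∈ T) ∧ ∀ u v, f (u + v) = ∑ i, g i u * h i v}
    {γ : A.ValueGroup} {x : AddMonoidAlgebra Qb V} :
    InC (famOf A T h0 hco) γ x ↔ ∀ f ∈ T, A.valuation (pair x f) ≤ γ := by
  constructor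
  · intro h f hf
    exact h (pairL f) ⟨f, hf, rfl⟩
  · rintro h ℓ ⟨f, hf, rfl⟩
    exact h f hf

variable {A : ValuationSubring Qb} {W : Type} [AddCommGroup W] [DistribMulAction ↥(Iner A) W]

/-- the family of functionals on the measures on `W` given by the functions of the model. -/
noncomputable def _root_.Fermat.Agent.S56.Flat.Model.fam (M : Model A W) :
    Fam A (AddMonoidAlgebra Qb W) :=
  famOf A (M.carrier : Set (W → Qb)) (fun f hf => M.int f hf 0) (by
    intro f hf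
    obtain ⟨n, g, h, hg, hh, hfgh⟩ := M.comul f hf
    exact ⟨Fin n, inferInstance, g, h, hg, hh, hfgh⟩)

theorem inC_fam_iff {M : Model A W} {γ : A.ValueGroup} {x : AddMonoidAlgebra Qb W} :
    InC M.fam γ x ↔ ∀ f ∈ M.carrier, A.valuation (pair x f) ≤ γ :=
  inC_famOf_iff

/-- the functions `(u, v) ↦ f u * g v` on `W × W`. -/
def T₂ (M : Model A W) : Set (W × W → Qb) :=
  {G | ∃ f ∈ M.carrier, ∃ g ∈ M.carrier, G = fun z => f z.1 * g z.2}

/-- the family of functionals on the measures on `W × W` given by the functions `f ⊗ g`. -/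
noncomputable def _root_.Fermat.Agent.S56.Flat.Model.fam₂ (M : Model A W) :
    Fam A (AddMonoidAlgebra Qb (W × W)) :=
  famOf A (T₂ M) (by
    rintro G ⟨f, hf, g, hg, rfl⟩
    exact A.mul_mem _ _ (M.int f hf 0) (M.int g hg 0)) (by
    rintro G ⟨f, hf, g, hg, rfl⟩
    obtain ⟨n, a, b, ha, hb, hab⟩ := M.comul f hf
    obtain ⟨m, a', b', ha', hb', hab'⟩ := M.comul g hg
    refine ⟨Fin n × Fin m, inferInstance, fun i z => a i.1 z.1 * a' i.2 z.2,
      fun i z => b i.1 z.1 * b' i.2 z.2, fun i => ⟨_, ha i.1, _, ha' i.2, rfl⟩,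
      fun i => ⟨_, hb i.1, _, hb' i.2, rfl⟩, ?_⟩
    intro u v
    simp only [Prod.fst_add, Prod.snd_add, hab, hab']
    rw [Finset.sum_mul_sum, Fintype.sum_prod_type]
    refine Finset.sum_congr rfl fun i _ => Finset.sum_congr rfl fun j _ => ?_
    ring)

theorem inC_fam₂_iff {M : Model A W} {γ : A.ValueGroup} {x : AddMonoidAlgebra Qb (W × W)} :
    InC M.fam₂ γ x ↔ ∀ f ∈ M.carrier, ∀ g ∈ M.carrier,
      A.valuation (pair x (fun z => f z.1 * g z.2)) ≤ γ := by
  rw [Model.fam₂, inC_famOf_iff]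
  constructor
  · intro h f hf g hg
    exact h _ ⟨f, hf, g, hg, rfl⟩
  · rintro h G ⟨f, hf, g, hg, rfl⟩
    exact h f hf g hg

/-- the diagonal `W → W × W` on measures. -/
noncomputable def dl (W : Type) [AddCommGroup W] :
    AddMonoidAlgebra Qb W →+* AddMonoidAlgebra Qb (W × W) :=
  AddMonoidAlgebra.mapDomainRingHom Qb ((AddMonoidHom.id W).prod (AddMonoidHom.id W))

/-- the first inclusion `W → W × W` on measures. -/
noncomputable def i₁ (W : Type) [AddCommGroup W] :
    AddMonoidAlgebra Qb W →+* AddMonoidAlgebra Qb (W × W) :=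
  AddMonoidAlgebra.mapDomainRingHom Qb (AddMonoidHom.inl W W)

/-- the second inclusion `W → W × W` on measures. -/
noncomputable def i₂ (W : Type) [AddCommGroup W] :
    AddMonoidAlgebra Qb W →+* AddMonoidAlgebra Qb (W × W) :=
  AddMonoidAlgebra.mapDomainRingHom Qb (AddMonoidHom.inr W W)

/-- products of functions `h - a`, `h` in the model, `a ∈ A` a constant. -/
inductive Poly (M : Model A W) : (W → Qb) → Prop
  | one : Poly M 1
  | mul_sub (G h : W → Qb) (a : Qb) : Poly M G → h ∈ M.carrier → a ∈ A →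
      Poly M (G * (h - fun _ => a))

/-- `x` is multiplicative modulo `κ` on the model. -/
def MulMod (M : Model A W) (κ : A.ValueGroup) (x : AddMonoidAlgebra Qb W) : Prop :=
  ∀ f ∈ M.carrier, ∀ g ∈ M.carrier, A.valuation (pair x (f * g) - pair x f * pair x g) ≤ κ

end Fermat.Agent.S56.Flat.Fon
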