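/-
S56 / FLAT / F1 "Fontaine lemma" (architect helper53): `Flat/Fon/Arch.lean`.
-/
import Fermat.Agent.S56.Flat.Fon.Defs

set_option autoImplicit false

namespace Fermat.Agent.S56.Flat.Fon

open Fermat.Agent.Lib.InertiaField

variable {A : ValuationSubring Qb} {p : ℕ}
variable {R : Type} [CommRing R] [Algebra Qb R] {F : Fam A R} {γ γ' : A.ValueGroup} {x y : R}

/-! ### L3  `Flat/Fon/Arch.lean` -/

theorem val_p_lt_one (hA : A.LiesOverPrime p) : A.valuation (p : Qb) < 1 :=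
  (A.mem_nonunits_iff).mp hA

theorem val_p_ne_zero (hp : p.Prime) : A.valuation (p : Qb) ≠ 0 :=
  (map_ne_zero _).2 (Nat.cast_ne_zero.2 hp.ne_zero)

theorem val_lt_one_of_small (hp : p.Prime) (hA : A.LiesOverPrime p) {c : Qb}
    (hc : Small A p c) : A.valuation c < 1 := by
  by_contra h
  rw [not_lt] at h
  have h1 : 1 ≤ A.valuation c ^ (p - 1) := one_le_pow₀ h
  exact absurd (h1.trans_lt (lt_trans hc (val_p_lt_one hA))) (lt_irrefl _)

theorem val_le_mu (c : Qb) : A.valuation c ≤ mu A p c := le_max_left _ _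

theorem val_pow_le_mu (hp : p.Prime) (c : Qb) :
    A.valuation c ^ (p - 1) ≤ A.valuation (p : Qb) * mu A p c := by
  have h0 : 0 < A.valuation (p : Qb) := zero_lt_iff.2 (val_p_ne_zero hp)
  have h1 : A.valuation c ^ (p - 1) / A.valuation (p : Qb) ≤ mu A p c := le_max_right _ _
  rw [div_le_iff₀ h0] at h1
  rwa [mul_comm]

theorem mu_lt_one (hp : p.Prime) (hA : A.LiesOverPrime p) {c : Qb} (hc : Small A p c) :
    mu A p c < 1 := by
  have h0 : 0 < A.valuation (p : Qb) := zero_lt_iff.2 (val_p_ne_zero hp)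
  exact max_lt (val_lt_one_of_small hp hA hc) ((div_lt_one₀ h0).2 hc)

theorem mu_ne_zero {c : Qb} (hc : c ≠ 0) : mu A p c ≠ 0 := by
  have h1 : 0 < A.valuation c := zero_lt_iff.2 ((map_ne_zero _).2 hc)
  exact (h1.trans_le (val_le_mu c)).ne'

/-- the value group has rank one [`A.valuation_surjective`, `exists_pow_div_pow_mem`,
`exists_div_pow_not_mem`]. -/
theorem exists_pow_le (hp : p.Prime) (hA : A.LiesOverPrime p) {μ τ : A.ValueGroup} (hμ : μ < 1)
    (hτ : τ ≠ 0) : ∃ n : ℕ, μ ^ n ≤ τ := by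
  obtain ⟨m, rfl⟩ := A.valuation_surjective μ
  obtain ⟨t, rfl⟩ := A.valuation_surjective τ
  have ht : t ≠ 0 := (map_ne_zero _).1 hτ
  have hm : m ∈ A.nonunits := (A.mem_nonunits_iff).mpr hμ
  have h0 : 0 < A.valuation (p : Qb) := zero_lt_iff.2 (val_p_ne_zero hp)
  obtain ⟨k, hk⟩ := exists_div_pow_not_mem A p hp hA ht
  obtain ⟨n, hn⟩ := exists_pow_div_pow_mem A p hp hA hm k
  have hk0 : 0 < A.valuation (p : Qb) ^ k := pow_pos h0 k
  rw [← A.valuation_le_one_iff, not_le, map_div₀, map_pow, one_lt_div₀ hk0] at hk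
  rw [← A.valuation_le_one_iff, map_div₀, map_pow, map_pow, div_le_one₀ hk0] at hn
  exact ⟨n, hn.trans hk.le⟩

theorem eq_zero_of_forall_le (hp : p.Prime) (hA : A.LiesOverPrime p) {z : Qb}
    (h : ∀ τ : A.ValueGroup, τ ≠ 0 → A.valuation z ≤ τ) : z = 0 := by
  by_contra hz
  have hz0 : A.valuation z ≠ 0 := (map_ne_zero _).2 hz
  have h1 := h (A.valuation z * A.valuation (p : Qb)) (mul_ne_zero hz0 (val_p_ne_zero hp))
  have h2 : A.valuation z * A.valuation (p : Qb) < A.valuation z :=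
    mul_lt_of_lt_one_right (zero_lt_iff.2 hz0) (val_p_lt_one hA)
  exact absurd (h1.trans_lt h2) (lt_irrefl _)

end Fermat.Agent.S56.Flat.Fon
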