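/-
S56 / FLAT / F1 "Fontaine lemma" (architect helper53): `Flat/Fon/InC.lean`.  (proofs: helper195)
-/
import Fermat.Agent.S56.Flat.Fon.Defs

set_option autoImplicit false

namespace Fermat.Agent.S56.Flat.Fon

open Fermat.Agent.Lib.InertiaField

variable {A : ValuationSubring Qb} {p : ℕ}
variable {R : Type} [CommRing R] [Algebra Qb R] {F : Fam A R} {γ γ' : A.ValueGroup} {x y : R}

/-! ### L1  `Flat/Fon/InC.lean`  (ultrametric calculus; `mul` uses `F.comul` + `Valuation.map_sum_le`) -/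

theorem InC.mono (h : InC F γ x) (hγ : γ ≤ γ') : InC F γ' x := fun ℓ hℓ => (h ℓ hℓ).trans hγ

theorem InC.zero : InC F γ 0 := fun ℓ _ => by
  rw [map_zero, map_zero]
  exact zero_le

theorem InC.add (hx : InC F γ x) (hy : InC F γ y) : InC F γ (x + y) := fun ℓ hℓ => by
  rw [map_add]
  exact Valuation.map_add_le _ (hx ℓ hℓ) (hy ℓ hℓ)

theorem InC.neg (hx : InC F γ x) : InC F γ (-x) := fun ℓ hℓ => by
  rw [map_neg, Valuation.map_neg]
  exact hx ℓ hℓ

theorem InC.sub (hx : InC F γ x) (hy : InC F γ y) : InC F γ (x - y) := by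
  rw [sub_eq_add_neg]
  exact hx.add hy.neg

theorem InC.smul (a : Qb) (hx : InC F γ x) : InC F (A.valuation a * γ) (a • x) := fun ℓ hℓ => by
  rw [map_smul, smul_eq_mul, map_mul]
  exact mul_le_mul_right (hx ℓ hℓ) _

theorem InC.of_smul {a : Qb} (ha : a ≠ 0) (hx : InC F (A.valuation a * γ) (a • x)) :
    InC F γ x := fun ℓ hℓ => by
  have h := hx ℓ hℓ
  rw [map_smul, smul_eq_mul, map_mul] at h
  have hv : 0 < A.valuation a := zero_lt_iff.2 ((Valuation.ne_zero_iff _).2 ha)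
  exact le_of_mul_le_mul_left h hv

theorem InC.one : InC F 1 1 := fun ℓ hℓ => (A.valuation_le_one_iff _).2 (F.one_mem ℓ hℓ)

theorem InC.mul (hx : InC F γ x) (hy : InC F γ' y) : InC F (γ * γ') (x * y) := fun ℓ hℓ => by
  obtain ⟨ι, _, g, h, hg, hh, hmul⟩ := F.comul ℓ hℓ
  rw [hmul]
  refine Valuation.map_sum_le _ fun i _ => ?_
  rw [map_mul]
  exact mul_le_mul' (hx _ (hg i)) (hy _ (hh i))

theorem InC.pow (hx : InC F γ x) (n : ℕ) : InC F (γ ^ n) (x ^ n) := by
  induction n with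
  | zero =>
    rw [pow_zero, pow_zero]
    exact InC.one
  | succ n ih =>
    rw [pow_succ, pow_succ]
    exact ih.mul hx

private theorem natCast_mul_eq_smul (n : ℕ) (x : R) : (n : R) * x = (n : Qb) • x := by
  rw [Algebra.smul_def, map_natCast]

/-- `(n : R) * x = (n : Qb) • x`. -/
theorem InC.natCast_mul' (n : ℕ) (hx : InC F γ x) :
    InC F (A.valuation (n : Qb) * γ) ((n : R) * x) := by
  rw [natCast_mul_eq_smul]
  exact hx.smul _

theorem InC.natCast_mul (n : ℕ) (hx : InC F γ x) : InC F γ ((n : R) * x) := by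
  refine (hx.natCast_mul' n).mono ?_
  have h1 : A.valuation (n : Qb) ≤ 1 := (A.valuation_le_one_iff _).2 (natCast_mem A n)
  exact mul_le_of_le_one_left' h1

theorem InC.of_natCast_mul {n : ℕ} (hn : n ≠ 0)
    (hx : InC F (A.valuation (n : Qb) * γ) ((n : R) * x)) : InC F γ x := by
  rw [natCast_mul_eq_smul] at hx
  exact hx.of_smul (Nat.cast_ne_zero.2 hn)

theorem InC.sum {ι : Type} (s : Finset ι) (z : ι → R) (h : ∀ i ∈ s, InC F γ (z i)) :
    InC F γ (∑ i ∈ s, z i) := fun ℓ hℓ => by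
  rw [map_sum]
  exact Valuation.map_sum_le _ fun i hi => h i hi ℓ hℓ

end Fermat.Agent.S56.Flat.Fon
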