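/-
S56 / FLAT / F1 "Fontaine lemma" (architect helper53): `Flat/Fon/Binom.lean`.
-/
import Fermat.Agent.S56.Flat.Fon.InC

set_option autoImplicit false

namespace Fermat.Agent.S56.Flat.Fon

open Fermat.Agent.Lib.InertiaField

variable {A : ValuationSubring Qb} {p : ℕ}
variable {R : Type} [CommRing R] [Algebra Qb R] {F : Fam A R} {γ γ' : A.ValueGroup} {x y : R}

/-! ### L2  `Flat/Fon/Binom.lean` -/

/-- [`add_pow`, split off `j = 0, 1, p`; `p ∣ p.choose j` for `0 < j < p`
(`Nat.Prime.dvd_choose_self`).] -/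
theorem add_pow_prime_eq {S : Type} [CommRing S] (hp : p.Prime) (b E : S) :
    (b + E) ^ p = b ^ p + (p : S) * E * b ^ (p - 1) + (p : S) * E ^ 2 * binS p b E + E ^ p := by
  have h2 : 2 ≤ p := hp.two_le
  rw [add_comm b E, add_pow, Finset.sum_range_succ, Finset.range_eq_Ico,
    Finset.sum_eq_sum_Ico_succ_bot (by omega : 0 < p),
    Finset.sum_eq_sum_Ico_succ_bot (by omega : 0 + 1 < p)]
  have hmid : ∑ k ∈ Finset.Ico (0 + 1 + 1) p, E ^ k * b ^ (p - k) * ((p.choose k : ℕ) : S) =
      (p : S) * E ^ 2 * binS p b E := by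
    unfold Fermat.Agent.S56.Flat.Fon.binS
    rw [Finset.mul_sum]
    refine Finset.sum_congr rfl fun j hj => ?_
    rw [Finset.mem_Ico] at hj
    have h3 : p.choose j = p * (p.choose j / p) :=
      (Nat.mul_div_cancel' (hp.dvd_choose_self (by omega) hj.2)).symm
    have h4 : E ^ j = E ^ 2 * E ^ (j - 2) := by
      rw [← pow_add]
      congr 1
      omega
    have h5 : ((p.choose j : ℕ) : S) = (p : S) * ((p.choose j / p : ℕ) : S) := by
      rw [← Nat.cast_mul, ← h3]
    rw [h5, h4]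
    ring
  rw [hmid]
  simp only [pow_zero, Nat.sub_zero, Nat.choose_zero_right, Nat.cast_one, zero_add, pow_one,
    Nat.choose_one_right, Nat.sub_self, Nat.choose_self]
  ring

theorem InC.binS {b E : R} (hb : InC F 1 b) (hE : InC F 1 E) : InC F 1 (binS p b E) := by
  unfold Fermat.Agent.S56.Flat.Fon.binS
  refine InC.sum _ _ fun j _ => ?_
  rw [mul_assoc]
  refine InC.natCast_mul _ ?_
  have h1 := (hb.pow (p - j)).mul (hE.pow (j - 2))
  rwa [one_pow, one_pow, one_mul] at h1

end Fermat.Agent.S56.Flat.Fon
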