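/-
S56 / FLAT / F1 "Fontaine lemma" (architect helper53): `Flat/Fon/Rig.lean`.  (proofs: helper193)
-/
import Fermat.Agent.S56.Flat.Fon.InC
import Fermat.Agent.S56.Flat.Fon.Binom
import Fermat.Agent.S56.Flat.Fon.Arch

set_option autoImplicit false

namespace Fermat.Agent.S56.Flat.Fon

open Fermat.Agent.Lib.InertiaField

variable {A : ValuationSubring Qb} {p : ℕ}
variable {R : Type} [CommRing R] [Algebra Qb R] {F : Fam A R} {γ γ' : A.ValueGroup} {x y : R}

/-! ### L4  `Flat/Fon/Rig.lean`  RIGIDITY -/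

/-- One step.  With `E = a - b`:
`p E = b (a^p - b^p) - p E (b^p - 1) - p E^2 S b - E^p b` (`add_pow_prime_eq`, `linear_combination`),
and the last three terms are in `v p * (s * μ)`. -/
theorem rig_step (hp : p.Prime) (hA : A.LiesOverPrime p) {c : Qb} (hc : Small A p c)
    {τ s : A.ValueGroup} {a b : R} (ha : InC F 1 a) (hb : InC F 1 b)
    (hab : InC F (A.valuation c) (a - b))
    (hb1 : InC F (A.valuation (p : Qb) * A.valuation c) (b ^ p - 1))
    (hpow : InC F (A.valuation (p : Qb) * τ) (a ^ p - b ^ p))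
    (hs : InC F s (a - b)) : InC F (max τ (s * mu A p c)) (a - b) := by
  have hvc : A.valuation c ≤ 1 := (val_lt_one_of_small hp hA hc).le
  have hP : A.valuation (p : Qb) ≤ 1 := (val_p_lt_one hA).le
  have hvμ : A.valuation c ≤ mu A p c := val_le_mu c
  have hE1 : InC F 1 (a - b) := hab.mono hvc
  have hS : InC F 1 (binS p b (a - b)) := InC.binS hb hE1
  -- the identity
  have hbin := add_pow_prime_eq hp b (a - b)
  rw [add_sub_cancel] at hbin
  have hp1 : p - 1 + 1 = p := Nat.sub_add_cancel hp.one_le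
  have hbb : b * b ^ (p - 1) = b ^ p := by rw [← pow_succ', hp1]
  have hEE : (a - b) ^ p = (a - b) * (a - b) ^ (p - 1) := by rw [← pow_succ', hp1]
  have hid : (p : R) * (a - b) = b * (a ^ p - b ^ p) - (p : R) * ((a - b) * (b ^ p - 1))
      - (p : R) * ((a - b) * ((a - b) * (binS p b (a - b) * b)))
      - (a - b) * ((a - b) ^ (p - 1) * b) := by
    linear_combination (-b) * hbin - (p : R) * (a - b) * hbb - b * hEE
  refine InC.of_natCast_mul hp.ne_zero ?_
  rw [hid]
  have hsμ : A.valuation (p : Qb) * (s * mu A p c) ≤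
      A.valuation (p : Qb) * max τ (s * mu A p c) := mul_le_mul' le_rfl (le_max_right _ _)
  refine ((InC.sub ?_ ?_).sub ?_).sub ?_
  · refine (hb.mul hpow).mono ?_
    rw [one_mul]
    exact mul_le_mul' le_rfl (le_max_left _ _)
  · refine ((hs.mul hb1).natCast_mul' p).mono (le_trans ?_ hsμ)
    refine mul_le_mul' le_rfl (mul_le_mul' le_rfl ?_)
    exact le_trans (mul_le_of_le_one_left' hP) hvμ
  · refine ((hs.mul (hab.mul (hS.mul hb))).natCast_mul' p).mono (le_trans ?_ hsμ)
    refine mul_le_mul' le_rfl (mul_le_mul' le_rfl ?_)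
    rw [mul_one, mul_one]
    exact hvμ
  · refine (hs.mul ((hab.pow (p - 1)).mul hb)).mono (le_trans ?_ hsμ)
    rw [mul_one, mul_left_comm]
    exact mul_le_mul' le_rfl (val_pow_le_mu hp c)

/-- RIGIDITY: iterate `rig_step` (`InC F (max τ (v c * μ ^ n)) (a - b)`), then `exists_pow_le`. -/
theorem rig (hp : p.Prime) (hA : A.LiesOverPrime p) {c : Qb} (hc : Small A p c)
    {τ : A.ValueGroup} (hτ : τ ≠ 0) {a b : R} (ha : InC F 1 a) (hb : InC F 1 b)
    (hab : InC F (A.valuation c) (a - b))
    (hb1 : InC F (A.valuation (p : Qb) * A.valuation c) (b ^ p - 1))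
    (hpow : InC F (A.valuation (p : Qb) * τ) (a ^ p - b ^ p)) : InC F τ (a - b) := by
  have hμ1 : mu A p c < 1 := mu_lt_one hp hA hc
  have hvc : A.valuation c ≤ 1 := (val_lt_one_of_small hp hA hc).le
  have key : ∀ n : ℕ, InC F (max τ (A.valuation c * mu A p c ^ n)) (a - b) := by
    intro n
    induction n with
    | zero =>
      refine hab.mono ?_
      rw [pow_zero, mul_one]
      exact le_max_right _ _
    | succ n ih =>
      refine (rig_step hp hA hc ha hb hab hb1 hpow ih).mono (max_le (le_max_left _ _) ?_)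
      rcases le_total τ (A.valuation c * mu A p c ^ n) with h | h
      · rw [max_eq_right h, pow_succ, ← mul_assoc]
        exact le_max_right _ _
      · rw [max_eq_left h]
        exact le_trans (mul_le_of_le_one_right' hμ1.le) (le_max_left _ _)
  obtain ⟨n, hn⟩ := exists_pow_le hp hA hμ1 hτ
  refine (key n).mono (max_le le_rfl ?_)
  exact le_trans (mul_le_of_le_one_left' hvc) hn

end Fermat.Agent.S56.Flat.Fon
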