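/-
S56 / FLAT / F1 "Fontaine lemma" (architect helper53; proofs helper107, task 2967): `Flat/Fon/Inj.lean`.
-/
import Fermat.Agent.S56.Flat.Fon.Fam
import Fermat.Agent.S56.Flat.Fon.Rig

set_option autoImplicit false

namespace Fermat.Agent.S56.Flat.Fon

open Fermat.Agent.Lib.InertiaField

variable {A : ValuationSubring Qb} {p : ℕ}
variable {W : Type} [AddCommGroup W] [DistribMulAction ↥(Iner A) W]

/-! ### L6  `Flat/Fon/Inj.lean`  F1 (i) -/

/-- [`M.comul f` at `(w, -w')` and `(w', -w')`.] -/
theorem cong_sub (M : Model A W) {c : Qb} {w w' : W} (h : M.Cong c w w') :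
    M.Cong c (w - w') 0 := by
  intro f hf
  obtain ⟨n, g, k, hg, hk, hfgk⟩ := M.comul f hf
  have e : f (w - w') - f 0 = ∑ i, (g i w - g i w') * k i (-w') := by
    have h1 : f (w - w') = ∑ i, g i w * k i (-w') := by
      rw [sub_eq_add_neg, hfgk]
    have h2 : f 0 = ∑ i, g i w' * k i (-w') := by
      rw [← hfgk, add_neg_cancel]
    rw [h1, h2, ← Finset.sum_sub_distrib]
    exact Finset.sum_congr rfl fun i _ => (sub_mul _ _ _).symm
  rw [e]
  refine Valuation.map_sum_le _ fun i _ => ?_
  rw [map_mul]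
  calc A.valuation (g i w - g i w') * A.valuation (k i (-w'))
      ≤ A.valuation c * 1 :=
        mul_le_mul' (h (g i) (hg i)) ((A.valuation_le_one_iff _).2 (M.int _ (hk i) _))
    _ = A.valuation c := mul_one _

/-- [`rig` with `a = single x 1`, `b = 1`, all `τ ≠ 0`; `eq_zero_of_forall_le`; `M.sep`.] -/
theorem eq_zero_of_cong (hp : p.Prime) (hA : A.LiesOverPrime p) (M : Model A W)
    {c : Qb} (hc : Small A p c) {x : W} (hx : p • x = 0) (h : M.Cong c x 0) : x = 0 := by
  apply M.sep
  intro f hf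
  rw [← sub_eq_zero]
  apply eq_zero_of_forall_le hp hA
  intro τ hτ
  have ha : InC M.fam 1 (AddMonoidAlgebra.single x (1 : Qb)) := by
    rw [inC_fam_iff]
    intro g hg
    rw [pair_single, one_mul]
    exact (A.valuation_le_one_iff _).2 (M.int g hg x)
  have hab : InC M.fam (A.valuation c) (AddMonoidAlgebra.single x (1 : Qb) - 1) := by
    rw [inC_fam_iff]
    intro g hg
    rw [pair_sub_left, pair_single, pair_one, one_mul]
    exact h g hg
  have hb1 : InC M.fam (A.valuation (p : Qb) * A.valuation c)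
      ((1 : AddMonoidAlgebra Qb W) ^ p - 1) := by
    rw [one_pow, sub_self]
    exact InC.zero
  have hpow : InC M.fam (A.valuation (p : Qb) * τ)
      ((AddMonoidAlgebra.single x (1 : Qb)) ^ p - (1 : AddMonoidAlgebra Qb W) ^ p) := by
    rw [AddMonoidAlgebra.single_pow, hx, one_pow, one_pow, ← AddMonoidAlgebra.one_def, sub_self]
    exact InC.zero
  have key := rig hp hA hc hτ ha InC.one hab hb1 hpow
  rw [inC_fam_iff] at key
  have := key f hf
  rwa [pair_sub_left, pair_single, pair_one, one_mul] at this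

theorem eq_of_cong (hp : p.Prime) (hA : A.LiesOverPrime p) (M : Model A W)
    (hpW : ∀ w : W, p • w = 0) {c : Qb} (hc : Small A p c) {w w' : W} (h : M.Cong c w w') :
    w = w' :=
  sub_eq_zero.1 (eq_zero_of_cong hp hA M hc (hpW _) (cong_sub M h))

end Fermat.Agent.S56.Flat.Fon
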