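/-
S56 / FLAT / F1 "Fontaine lemma" (architect helper53): `Flat/Fon/Delta.lean`.
-/
import Fermat.Agent.S56.Flat.Fon.Fam

set_option autoImplicit false

namespace Fermat.Agent.S56.Flat.Fon

open Fermat.Agent.Lib.InertiaField

variable {A : ValuationSubring Qb} {p : ℕ}
variable {W : Type} [AddCommGroup W] [DistribMulAction ↥(Iner A) W]

/-! ### L10  `Flat/Fon/Delta.lean` -/

/-- A finite product of functions `h u - a u` is a `Poly`. -/
theorem poly_prod_sub (M : Model A W) {ι : Type} (s : Finset ι) (h : ι → W → Qb) (a : ι → Qb)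
    (hh : ∀ u ∈ s, h u ∈ M.carrier) (ha : ∀ u ∈ s, a u ∈ A) :
    Poly M (∏ u ∈ s, (h u - fun _ => a u)) := by
  classical
  induction s using Finset.induction_on with
  | empty =>
    rw [Finset.prod_empty]
    exact Poly.one
  | insert u s hu ih =>
    rw [Finset.prod_insert hu, mul_comm]
    exact Poly.mul_sub _ _ _
      (ih (fun v hv => hh v (Finset.mem_insert_of_mem hv))
        (fun v hv => ha v (Finset.mem_insert_of_mem hv)))
      (hh u (Finset.mem_insert_self u s)) (ha u (Finset.mem_insert_self u s))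

/-- [`Δ w = ∏ u ∈ univ.erase w, (f_{w,u} - f_{w,u} u)`, `f_{w,u} w ≠ f_{w,u} u` from `M.sep`.] -/
theorem exists_delta [Finite W] (M : Model A W) :
    ∃ (Δ : W → W → Qb) (D : W → Qb), (∀ w, D w ≠ 0) ∧ (∀ w, D w ∈ A) ∧ (∀ w, Δ w w = D w) ∧
      (∀ w u, u ≠ w → Δ w u = 0) ∧ ∀ w, Poly M (Δ w) := by
  classical
  have := Fintype.ofFinite W
  have hsep : ∀ w u : W, ∃ f : W → Qb, f ∈ M.carrier ∧ (u ≠ w → f w ≠ f u) := by
    intro w u
    by_cases huw : u = w
    · exact ⟨0, M.carrier.zero_mem, fun h => absurd huw h⟩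
    · by_contra hcon
      push Not at hcon
      refine huw (M.sep w u fun f hf => ?_).symm
      exact (hcon f hf).2
  choose φ hφ hφ' using hsep
  refine ⟨fun w => ∏ u ∈ Finset.univ.erase w, (φ w u - fun _ => φ w u u),
    fun w => ∏ u ∈ Finset.univ.erase w, (φ w u w - φ w u u), ?_, ?_, ?_, ?_, ?_⟩
  · intro w
    rw [Finset.prod_ne_zero_iff]
    intro u hu
    exact sub_ne_zero.2 (hφ' w u (Finset.ne_of_mem_erase hu))
  · intro w
    exact prod_mem fun u _ => A.sub_mem (M.int _ (hφ w u) w) (M.int _ (hφ w u) u)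
  · intro w
    beta_reduce
    rw [Finset.prod_apply]
    rfl
  · intro w u hu
    beta_reduce
    rw [Finset.prod_apply]
    refine Finset.prod_eq_zero (Finset.mem_erase.2 ⟨hu, Finset.mem_univ u⟩) ?_
    exact sub_self _
  · intro w
    exact poly_prod_sub M _ _ _ (fun u _ => hφ w u) (fun u _ => M.int _ (hφ w u) u)

end Fermat.Agent.S56.Flat.Fon
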