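/-
S56 / FLAT / F1 "Fontaine lemma" (architect helper53): `Flat/Fon/Good.lean`.
-/
import Fermat.Agent.S56.Flat.Fon.Fam
import Fermat.Agent.S56.Flat.Fon.InC

set_option autoImplicit false

namespace Fermat.Agent.S56.Flat.Fon

open Fermat.Agent.Lib.InertiaField

variable {A : ValuationSubring Qb} {p : ℕ}
variable {W : Type} [AddCommGroup W] [DistribMulAction ↥(Iner A) W]

/-! ### L11  `Flat/Fon/Good.lean` -/

/-- [`u = pair x 1`: `v (u - u * u) ≤ τ` and `v u = 1`.] -/
theorem MulMod.one_sub {M : Model A W} {τ : A.ValueGroup} {x : AddMonoidAlgebra Qb W}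
    (hm : MulMod M τ x) (h1 : A.valuation (pair x 1 - 1) < 1) :
    A.valuation (pair x 1 - 1) ≤ τ := by
  have h := hm 1 M.carrier.one_mem 1 M.carrier.one_mem
  rw [one_mul] at h
  have hu : A.valuation (pair x 1) = 1 := by
    have := Valuation.map_one_add_of_lt (v := A.valuation) h1
    rwa [add_sub_cancel] at this
  have he : pair x 1 - pair x 1 * pair x 1 = -(pair x 1 * (pair x 1 - 1)) := by ring
  rwa [he, Valuation.map_neg, map_mul, hu, one_mul] at h

omit [AddCommGroup W] in
private theorem good_pair_mul_sub_const (x : AddMonoidAlgebra Qb W) (F h : W → Qb) (a : Qb) :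
    pair x (F * (h - fun _ => a)) = pair x (h * F) - a * pair x F := by
  have : F * (h - fun _ => a) = h * F - (fun v => a * F v) := by
    funext v
    simp only [Pi.mul_apply, Pi.sub_apply]
    ring
  rw [this, pair_sub_right, pair_const_mul]

private theorem good_mul_le {τ : A.ValueGroup} {s t : Qb} (hs : A.valuation s ≤ 1)
    (ht : A.valuation t ≤ τ) : A.valuation (s * t) ≤ τ := by
  rw [map_mul]
  calc A.valuation s * A.valuation t ≤ 1 * τ := mul_le_mul' hs ht
    _ = τ := one_mul τ

/-- induction on `Poly`. -/
theorem MulMod.poly {M : Model A W} {τ : A.ValueGroup} (hτ : τ ≤ 1)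
    {x : AddMonoidAlgebra Qb W} (hx : InC M.fam 1 x) (hm : MulMod M τ x)
    (h1 : A.valuation (pair x 1 - 1) < 1) {G : W → Qb} (hG : Poly M G) :
    pair x G ∈ A ∧ ∀ f ∈ M.carrier, A.valuation (pair x (f * G) - pair x f * pair x G) ≤ τ := by
  have hx' := inC_fam_iff.1 hx
  induction hG with
  | one =>
    refine ⟨(A.valuation_le_one_iff _).1 (hx' 1 M.carrier.one_mem), fun f hf => ?_⟩
    have he : pair x (f * 1) - pair x f * pair x 1 = -(pair x f * (pair x 1 - 1)) := by
      rw [mul_one]; ring
    rw [he, Valuation.map_neg]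
    exact good_mul_le (hx' f hf) (hm.one_sub h1)
  | mul_sub G h a _ hh ha ih =>
    obtain ⟨ihA, ih⟩ := ih
    have hGv : A.valuation (pair x G) ≤ 1 := (A.valuation_le_one_iff _).2 ihA
    have hav : A.valuation a ≤ 1 := (A.valuation_le_one_iff _).2 ha
    constructor
    · rw [good_pair_mul_sub_const]
      have h3 : pair x (h * G) - pair x h * pair x G ∈ A :=
        (A.valuation_le_one_iff _).1 ((ih h hh).trans hτ)
      have hhA : pair x h ∈ A := (A.valuation_le_one_iff _).1 (hx' h hh)
      have he : pair x (h * G) - a * pair x G =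
          (pair x (h * G) - pair x h * pair x G) + pair x h * pair x G - a * pair x G := by ring
      rw [he]
      exact A.sub_mem (A.add_mem _ _ h3 (A.mul_mem _ _ hhA ihA)) (A.mul_mem _ _ ha ihA)
    · intro f hf
      have e1 : f * (G * (h - fun _ => a)) = (f * G) * (h - fun _ => a) := (mul_assoc _ _ _).symm
      have e2 : h * (f * G) = (f * h) * G := by ring
      rw [e1, good_pair_mul_sub_const, good_pair_mul_sub_const, e2]
      have he : pair x (f * h * G) - a * pair x (f * G) -
            pair x f * (pair x (h * G) - a * pair x G) =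
          (pair x (f * h * G) - pair x (f * h) * pair x G)
            + pair x G * (pair x (f * h) - pair x f * pair x h)
            - pair x f * (pair x (h * G) - pair x h * pair x G)
            - a * (pair x (f * G) - pair x f * pair x G) := by ring
      rw [he]
      refine Valuation.map_sub_le _ (Valuation.map_sub_le _ (Valuation.map_add_le _ ?_ ?_) ?_) ?_
      · exact ih (f * h) (M.carrier.mul_mem hf hh)
      · exact good_mul_le hGv (hm f hf h hh)
      · exact good_mul_le (hx' f hf) (ih h hh)
      · exact good_mul_le hav (ih f hf)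

end Fermat.Agent.S56.Flat.Fon
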