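/-
S56 / FLAT / F1 "Fontaine lemma" (architect helper53): `Flat/Fon/Final.lean`.
-/
import Fermat.Agent.S56.Flat.Fon.Delta
import Fermat.Agent.S56.Flat.Fon.Good

set_option autoImplicit false

namespace Fermat.Agent.S56.Flat.Fon

open Fermat.Agent.Lib.InertiaField

variable {A : ValuationSubring Qb} {p : ℕ}
variable {W : Type} [AddCommGroup W] [DistribMulAction ↥(Iner A) W]

/-! ### L12  `Flat/Fon/Final.lean` -/

/-- [`pair x 1 = ∑ w, x.coeff w` has valuation `1`.] -/
theorem exists_one_le_coeff [Fintype W] {x : AddMonoidAlgebra Qb W}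
    (h1 : A.valuation (pair x 1 - 1) < 1) : ∃ w, 1 ≤ A.valuation (x.coeff w) := by
  by_contra hcon
  have hlt : ∀ w, A.valuation (x.coeff w) < 1 := fun w => by
    by_contra h
    exact hcon ⟨w, not_lt.1 h⟩
  have h2 : pair x 1 = ∑ w, x.coeff w := by
    rw [pair_eq_sum]
    simp
  have h3 : A.valuation (pair x 1) < 1 := by
    rw [h2]
    exact Valuation.map_sum_lt _ one_ne_zero (fun w _ => hlt w)
  have h4 : A.valuation (1 : Qb) < 1 := by
    have e : (1 : Qb) = pair x 1 - (pair x 1 - 1) := by ring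
    rw [e]
    exact Valuation.map_sub_lt _ h3 h1
  rw [map_one] at h4
  exact lt_irrefl _ h4

/-- a measure which is multiplicative modulo `τ` is close to a point.
[`D = ∏ w, D w`; `pair x (f * Δ w) = x w * f w * D w`, `pair x (Δ w) = x w * D w`.] -/
theorem exists_disc [Finite W] (M : Model A W) :
    ∃ D : Qb, D ≠ 0 ∧ D ∈ A ∧ ∀ (τ : A.ValueGroup) (x : AddMonoidAlgebra Qb W), τ ≤ 1 →
      InC M.fam 1 x → MulMod M τ x → A.valuation (pair x 1 - 1) < 1 →
      ∃ w, ∀ f ∈ M.carrier, A.valuation D * A.valuation (pair x f - f w) ≤ τ := by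
  classical
  have : Fintype W := Fintype.ofFinite W
  obtain ⟨Δ, D, hD0, hDA, hΔ, hΔ0, hP⟩ := exists_delta M
  refine ⟨∏ w, D w, Finset.prod_ne_zero_iff.2 (fun w _ => hD0 w), prod_mem (fun w _ => hDA w), ?_⟩
  intro τ x hτ hx hm h1
  obtain ⟨w, hw⟩ := exists_one_le_coeff h1
  refine ⟨w, fun f hf => ?_⟩
  have e1 : pair x (Δ w) = x.coeff w * D w := by
    rw [pair_eq_sum, Finset.sum_eq_single w (fun u _ hu => by rw [hΔ0 w u hu, mul_zero])
      (fun h => absurd (Finset.mem_univ w) h), hΔ]
  have e2 : pair x (f * Δ w) = x.coeff w * (f w * D w) := by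
    rw [pair_eq_sum, Finset.sum_eq_single w
      (fun u _ hu => by rw [Pi.mul_apply, hΔ0 w u hu, mul_zero, mul_zero])
      (fun h => absurd (Finset.mem_univ w) h), Pi.mul_apply, hΔ]
  have h2 := (MulMod.poly hτ hx hm h1 (hP w)).2 f hf
  rw [e1, e2] at h2
  have e3 : x.coeff w * (f w * D w) - pair x f * (x.coeff w * D w) =
      x.coeff w * D w * (f w - pair x f) := by ring
  rw [e3, map_mul, map_mul, Valuation.map_sub_swap] at h2
  have h3 : A.valuation (∏ u, D u) ≤ A.valuation (D w) := by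
    rw [← Finset.mul_prod_erase Finset.univ D (Finset.mem_univ w), map_mul]
    have h4 : A.valuation (∏ u ∈ Finset.univ.erase w, D u) ≤ 1 :=
      (A.valuation_le_one_iff _).2 (prod_mem fun u _ => hDA u)
    calc A.valuation (D w) * A.valuation (∏ u ∈ Finset.univ.erase w, D u)
        ≤ A.valuation (D w) * 1 := mul_le_mul' le_rfl h4
      _ = A.valuation (D w) := mul_one _
  calc A.valuation (∏ u, D u) * A.valuation (pair x f - f w)
      ≤ (A.valuation (x.coeff w) * A.valuation (D w)) * A.valuation (pair x f - f w) := by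
        refine mul_le_mul' ?_ le_rfl
        calc A.valuation (∏ u, D u) ≤ A.valuation (D w) := h3
          _ = 1 * A.valuation (D w) := (one_mul _).symm
          _ ≤ A.valuation (x.coeff w) * A.valuation (D w) := mul_le_mul' hw le_rfl
    _ ≤ τ := h2

end Fermat.Agent.S56.Flat.Fon
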