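/-
S56 / FLAT / F1 "Fontaine lemma" (architect helper53): `Flat/Fon/Improve.lean`.
-/
import Fermat.Agent.S56.Flat.Fon.InC
import Fermat.Agent.S56.Flat.Fon.Binom
import Fermat.Agent.S56.Flat.Fon.Arch

set_option autoImplicit false

namespace Fermat.Agent.S56.Flat.Fon

open Fermat.Agent.Lib.InertiaField

variable {A : ValuationSubring Qb} {p : ℕ}
variable {R : Type} [CommRing R] [Algebra Qb R] {F : Fam A R} {γ γ' : A.ValueGroup} {x y : R}

/-! ### L5  `Flat/Fon/Improve.lean`  NEWTON -/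

/-- One step: `β := (p s)⁻¹ • (x^p - 1)`, `E := -(s • β)`, `x' := x * (1 + E)`; then `x^p = 1 - p E`
and `x'^p - 1 = (1 - p E)(1 + p E + p E^2 S + E^p) - 1
  = p E^2 S + E^p - p^2 E^2 - p^2 E^3 S - p E^(p+1)`. -/
theorem improve_step (hp : p.Prime) (hA : A.LiesOverPrime p) {c s : Qb} (hc : Small A p c)
    (hs0 : s ≠ 0) (hs : A.valuation s ≤ A.valuation c) (hx : InC F 1 x)
    (hx1 : InC F (A.valuation (p : Qb) * A.valuation s) (x ^ p - 1)) :
    ∃ x' : R, InC F 1 x' ∧ InC F (A.valuation s) (x' - x) ∧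
      InC F (A.valuation (p : Qb) * (A.valuation s * mu A p c)) (x' ^ p - 1) := by
  set P := A.valuation (p : Qb) with hP
  set σ := A.valuation s with hσ
  set μ := mu A p c with hμ
  have hP1 : P ≤ 1 := (val_p_lt_one hA).le
  have hc1 : A.valuation c ≤ 1 := (val_lt_one_of_small hp hA hc).le
  have hσ1 : σ ≤ 1 := hs.trans hc1
  have hσμ : σ ≤ μ := hs.trans (val_le_mu c)
  have hσp : σ ^ (p - 1) ≤ P * μ := (pow_le_pow_left₀ zero_le' hs _).trans (val_pow_le_mu hp c)
  have hσp1 : σ ^ (p - 1) ≤ 1 := pow_le_one' hσ1 _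
  have hps : (p : Qb) * s ≠ 0 := mul_ne_zero (Nat.cast_ne_zero.2 hp.ne_zero) hs0
  obtain ⟨β, hβdef⟩ : ∃ β : R, β = ((p : Qb) * s)⁻¹ • (x ^ p - 1) := ⟨_, rfl⟩
  have hβs : ((p : Qb) * s) • β = x ^ p - 1 := by
    rw [hβdef, smul_smul, mul_inv_cancel₀ hps, one_smul]
  have hβ : InC F 1 β := by
    refine InC.of_smul hps ?_
    rw [hβs, map_mul, mul_one]
    exact hx1
  obtain ⟨E, hEdef⟩ : ∃ E : R, E = -(s • β) := ⟨_, rfl⟩
  have hE : InC F σ E := by
    rw [hEdef]
    have := (hβ.smul s).neg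
    rwa [mul_one] at this
  have hpE : (p : R) * E = -(x ^ p - 1) := by
    rw [hEdef, mul_neg, ← hβs, mul_smul, Algebra.smul_def (p : Qb), map_natCast]
  have hxp : x ^ p = 1 - (p : R) * E := by rw [hpE]; ring
  have hE1 : InC F 1 E := hE.mono hσ1
  have hS : InC F 1 (binS p 1 E) := InC.binS InC.one hE1
  set S := binS p 1 E with hSdef
  have hbin : (1 + E) ^ p = 1 + (p : R) * E + (p : R) * E ^ 2 * S + E ^ p := by
    have := add_pow_prime_eq hp (1 : R) E
    rwa [one_pow, one_pow, mul_one] at this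
  have hpp : E ^ p = E * E ^ (p - 1) := by
    rw [← pow_succ', Nat.sub_add_cancel hp.one_le]
  have hEp : InC F (σ ^ (p - 1)) (E ^ (p - 1)) := hE.pow _
  refine ⟨x * (1 + E), ?_, ?_, ?_⟩
  · have := hx.mul (InC.one.add hE1)
    rwa [one_mul] at this
  · have h1 : x * (1 + E) - x = x * E := by ring
    rw [h1]
    have := hx.mul hE
    rwa [one_mul] at this
  · have hid : (x * (1 + E)) ^ p - 1 = (p : R) * (E * (E * S)) + E * E ^ (p - 1)
        - (p : R) * ((p : R) * (E * E)) - (p : R) * ((p : R) * (E * (E * (E * S))))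
        - (p : R) * (E * (E * E ^ (p - 1))) := by
      rw [mul_pow, hxp, hbin, hpp]
      ring
    rw [hid]
    have t1 : InC F (P * (σ * μ)) ((p : R) * (E * (E * S))) := by
      refine ((hE.mul (hE.mul hS)).natCast_mul' p).mono ?_
      rw [mul_one]
      exact mul_le_mul_right (mul_le_mul_right hσμ _) _
    have t2 : InC F (P * (σ * μ)) (E * E ^ (p - 1)) := by
      refine (hE.mul hEp).mono ?_
      calc σ * σ ^ (p - 1) ≤ σ * (P * μ) := mul_le_mul_right hσp _
        _ = P * (σ * μ) := by rw [mul_left_comm]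
    have t3 : InC F (P * (σ * μ)) ((p : R) * ((p : R) * (E * E))) := by
      refine (((hE.mul hE).natCast_mul' p).natCast_mul' p).mono ?_
      refine mul_le_mul_right ?_ _
      calc P * (σ * σ) ≤ σ * σ := mul_le_of_le_one_left' hP1
        _ ≤ σ * μ := mul_le_mul_right hσμ _
    have t4 : InC F (P * (σ * μ)) ((p : R) * ((p : R) * (E * (E * (E * S))))) := by
      refine (((hE.mul (hE.mul (hE.mul hS))).natCast_mul' p).natCast_mul' p).mono ?_
      refine mul_le_mul_right ?_ _
      rw [mul_one]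
      calc P * (σ * (σ * σ)) ≤ σ * (σ * σ) := mul_le_of_le_one_left' hP1
        _ ≤ σ * μ := mul_le_mul_right ((mul_le_of_le_one_left' hσ1).trans hσμ) _
    have t5 : InC F (P * (σ * μ)) ((p : R) * (E * (E * E ^ (p - 1)))) := by
      refine ((hE.mul (hE.mul hEp)).natCast_mul' p).mono ?_
      refine mul_le_mul_right (mul_le_mul_right ?_ _) _
      exact (mul_le_of_le_one_right' hσp1).trans hσμ
    exact (((t1.add t2).sub t3).sub t4).sub t5

/-- iterate (`v s = v c * μ ^ n`, `A.valuation_surjective`); the case `c = 0` is trivial. -/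
theorem improve (hp : p.Prime) (hA : A.LiesOverPrime p) {c : Qb} (hc : Small A p c)
    {τ : A.ValueGroup} (hτ : τ ≠ 0) (hx : InC F 1 x)
    (hx1 : InC F (A.valuation (p : Qb) * A.valuation c) (x ^ p - 1)) :
    ∃ x' : R, InC F 1 x' ∧ InC F (A.valuation c) (x' - x) ∧
      InC F (A.valuation (p : Qb) * τ) (x' ^ p - 1) := by
  by_cases hc0 : c = 0
  · refine ⟨x, hx, ?_, ?_⟩
    · rw [sub_self]
      exact InC.zero
    · refine hx1.mono ?_
      rw [hc0, map_zero, mul_zero]
      exact zero_le'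
  have hμ1 : mu A p c < 1 := mu_lt_one hp hA hc
  have hμ0 : mu A p c ≠ 0 := mu_ne_zero hc0
  have hvc0 : A.valuation c ≠ 0 := (map_ne_zero _).2 hc0
  have hc1 : A.valuation c ≤ 1 := (val_lt_one_of_small hp hA hc).le
  have key : ∀ n : ℕ, ∃ x' : R, InC F 1 x' ∧ InC F (A.valuation c) (x' - x) ∧
      InC F (A.valuation (p : Qb) * (A.valuation c * mu A p c ^ n)) (x' ^ p - 1) := by
    intro n
    induction n with
    | zero =>
      refine ⟨x, hx, ?_, ?_⟩
      · rw [sub_self]
        exact InC.zero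
      · rw [pow_zero, mul_one]
        exact hx1
    | succ n ih =>
      obtain ⟨x', h1, h2, h3⟩ := ih
      obtain ⟨s, hs⟩ := A.valuation_surjective (A.valuation c * mu A p c ^ n)
      have hs0 : s ≠ 0 := by
        rw [← map_ne_zero A.valuation, hs]
        exact mul_ne_zero hvc0 (pow_ne_zero _ hμ0)
      have hsc : A.valuation s ≤ A.valuation c := by
        rw [hs]
        exact mul_le_of_le_one_right' (pow_le_one' hμ1.le _)
      obtain ⟨x'', g1, g2, g3⟩ := improve_step hp hA hc hs0 hsc h1 (by rw [hs]; exact h3)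
      refine ⟨x'', g1, ?_, ?_⟩
      · have e : x'' - x = (x'' - x') + (x' - x) := by ring
        rw [e]
        exact (g2.mono hsc).add h2
      · rw [hs, mul_assoc, ← pow_succ] at g3
        exact g3
  obtain ⟨n, hn⟩ := exists_pow_le hp hA hμ1 hτ
  obtain ⟨x', h1, h2, h3⟩ := key n
  refine ⟨x', h1, h2, h3.mono ?_⟩
  exact mul_le_mul_right ((mul_le_of_le_one_left' hc1).trans hn) _

end Fermat.Agent.S56.Flat.Fon
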