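/-
S56 / FLAT / F1 "Fontaine lemma" (architect helper53): `Flat/Fon/Two.lean`.
-/
import Fermat.Agent.S56.Flat.Fon.Fam
import Fermat.Agent.S56.Flat.Fon.InC

set_option autoImplicit false

namespace Fermat.Agent.S56.Flat.Fon

open Fermat.Agent.Lib.InertiaField

variable {A : ValuationSubring Qb} {p : ℕ}
variable {W : Type} [AddCommGroup W] [DistribMulAction ↥(Iner A) W]

/-! ### L8  `Flat/Fon/Two.lean` -/

theorem pair_dl (x : AddMonoidAlgebra Qb W) (f g : W → Qb) :
    pair (dl W x) (fun z => f z.1 * g z.2) = pair x (f * g) := by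
  rw [dl, pair_mapDomain]
  rfl

theorem pair_i₁_mul_i₂ (x y : AddMonoidAlgebra Qb W) (f g : W → Qb) :
    pair (i₁ W x * i₂ W y) (fun z => f z.1 * g z.2) = pair x f * pair y g := by
  rw [pair_mul, i₁, pair_mapDomain]
  have h1 : ∀ u : W, pair (i₂ W y) (fun v => f ((AddMonoidHom.inl W W u + v).1) *
      g ((AddMonoidHom.inl W W u + v).2)) = f u * pair y g := by
    intro u
    rw [i₂, pair_mapDomain, ← pair_const_mul]
    congr 1
    funext v
    simp
  simp only [h1]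
  rw [pair_mul_const]

theorem InC.dl {M : Model A W} {γ : A.ValueGroup} {x : AddMonoidAlgebra Qb W}
    (hx : InC M.fam γ x) : InC M.fam₂ γ (dl W x) := by
  rw [inC_fam₂_iff]
  intro f hf g hg
  rw [pair_dl]
  exact inC_fam_iff.1 hx _ (mul_mem hf hg)

theorem InC.i₁_mul_i₂ {M : Model A W} {γ γ' : A.ValueGroup} {x y : AddMonoidAlgebra Qb W}
    (hx : InC M.fam γ x) (hy : InC M.fam γ' y) : InC M.fam₂ (γ * γ') (i₁ W x * i₂ W y) := by
  rw [inC_fam₂_iff]
  intro f hf g hg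
  rw [pair_i₁_mul_i₂, map_mul]
  exact mul_le_mul' (inC_fam_iff.1 hx f hf) (inC_fam_iff.1 hy g hg)

theorem inC_dl_sub_iff {M : Model A W} {γ : A.ValueGroup} {x : AddMonoidAlgebra Qb W} :
    InC M.fam₂ γ (dl W x - i₁ W x * i₂ W x) ↔ MulMod M γ x := by
  rw [inC_fam₂_iff, MulMod]
  simp only [pair_sub_left, pair_dl, pair_i₁_mul_i₂]

end Fermat.Agent.S56.Flat.Fon
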