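/-
S56 / FLAT / F1 "Fontaine lemma" (architect helper53): `Flat/Fon/Mult.lean`.
-/
import Fermat.Agent.S56.Flat.Fon.Two
import Fermat.Agent.S56.Flat.Fon.Rig

set_option autoImplicit false

namespace Fermat.Agent.S56.Flat.Fon

open Fermat.Agent.Lib.InertiaField

variable {A : ValuationSubring Qb} {p : ℕ}
variable {W : Type} [AddCommGroup W] [DistribMulAction ↥(Iner A) W]

/-! ### L9  `Flat/Fon/Mult.lean` -/

/-- [`rig` for `M.fam₂`, `a = dl x`, `b = i₁ x * i₂ x`.  With `e = x^p - 1`: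
`b^p - 1 = i₁ e * i₂ 1 + i₁ 1 * i₂ e + i₁ e * i₂ e`, `a^p - b^p = dl e - (b^p - 1)`.] -/
theorem mulMod_of_pow (hp : p.Prime) (hA : A.LiesOverPrime p) (M : Model A W) {c : Qb}
    (hc : Small A p c) {τ : A.ValueGroup} (hτ : τ ≠ 0) (hτc : τ ≤ A.valuation c)
    {x : AddMonoidAlgebra Qb W} (hx : InC M.fam 1 x)
    (hxp : InC M.fam (A.valuation (p : Qb) * τ) (x ^ p - 1))
    (hm : MulMod M (A.valuation c) x) : MulMod M τ x := by
  rw [← inC_dl_sub_iff]
  have hc1 : A.valuation c < 1 := val_lt_one_of_small hp hA hc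
  have hP1 : A.valuation (p : Qb) < 1 := val_p_lt_one hA
  have hPτ1 : A.valuation (p : Qb) * τ ≤ 1 := mul_le_one' hP1.le (hτc.trans hc1.le)
  have hone : InC M.fam 1 (1 : AddMonoidAlgebra Qb W) := InC.one
  have hbp : (i₁ W x * i₂ W x) ^ p - 1 = i₁ W (x ^ p - 1) * i₂ W 1 + i₁ W 1 * i₂ W (x ^ p - 1) +
      i₁ W (x ^ p - 1) * i₂ W (x ^ p - 1) := by
    simp only [map_sub, map_one, map_pow]
    ring
  have hb1τ : InC M.fam₂ (A.valuation (p : Qb) * τ) ((i₁ W x * i₂ W x) ^ p - 1) := by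
    rw [hbp]
    refine InC.add (InC.add ?_ ?_) ?_
    · have := hxp.i₁_mul_i₂ hone
      rwa [mul_one] at this
    · have := hone.i₁_mul_i₂ hxp
      rwa [one_mul] at this
    · exact (hxp.i₁_mul_i₂ hxp).mono (mul_le_of_le_one_right' hPτ1)
  apply rig hp hA hc hτ (F := M.fam₂)
  · exact hx.dl
  · have := hx.i₁_mul_i₂ hx
    rwa [one_mul] at this
  · exact inC_dl_sub_iff.mpr hm
  · exact hb1τ.mono (mul_le_mul' le_rfl hτc)
  · have e : dl W x ^ p - (i₁ W x * i₂ W x) ^ p =
        dl W (x ^ p - 1) - ((i₁ W x * i₂ W x) ^ p - 1) := by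
      rw [map_sub, map_pow, map_one]
      ring
    rw [e]
    exact hxp.dl.sub hb1τ

/-- perturbation -/
theorem MulMod.of_sub {M : Model A W} {κ : A.ValueGroup} (hκ : κ ≤ 1)
    {x x' : AddMonoidAlgebra Qb W} (hx : InC M.fam 1 x) (hx' : InC M.fam 1 x')
    (h : InC M.fam κ (x' - x)) (hm : MulMod M κ x) : MulMod M κ x' := by
  intro f hf g hg
  rw [inC_fam_iff] at hx hx' h
  have e : ∀ F : W → Qb, pair x' F = pair x F + pair (x' - x) F := by
    intro F
    rw [pair_sub_left]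
    ring
  have key : pair x' (f * g) - pair x' f * pair x' g =
      (pair x (f * g) - pair x f * pair x g) + pair (x' - x) (f * g) -
        pair x f * pair (x' - x) g - pair (x' - x) f * pair x' g := by
    linear_combination e (f * g) - pair x' g * e f - pair x f * e g
  rw [key]
  refine Valuation.map_sub_le _ (Valuation.map_sub_le _ (Valuation.map_add_le _ (hm f hf g hg)
    (h _ (M.carrier.mul_mem hf hg))) ?_) ?_
  · rw [map_mul]
    calc A.valuation (pair x f) * A.valuation (pair (x' - x) g) ≤ 1 * κ :=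
          mul_le_mul' (hx f hf) (h g hg)
      _ = κ := one_mul κ
  · rw [map_mul]
    calc A.valuation (pair (x' - x) f) * A.valuation (pair x' g) ≤ κ * 1 :=
          mul_le_mul' (h f hf) (hx' g hg)
      _ = κ := mul_one κ

end Fermat.Agent.S56.Flat.Fon
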