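/-
S56 / FLAT / F1 "Fontaine lemma" (architect helper53; proofs helper230): `Flat/Fon/Pullback.lean`.
-/
import Fermat.Agent.S56.Flat.Fon.Fam
import Fermat.Agent.S56.Flat.Fon.InC

set_option autoImplicit false

namespace Fermat.Agent.S56.Flat.Fon

open Fermat.Agent.Lib.InertiaField

variable {A : ValuationSubring Qb} {p : ℕ}
variable {W : Type} [AddCommGroup W] [DistribMulAction ↥(Iner A) W]

/-! ### L7  `Flat/Fon/Pullback.lean` -/

private theorem const_zero_mem (M : Model A W) {f : W → Qb} (hf : f ∈ M.carrier) :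
    (fun _ : W => f 0) ∈ M.carrier := by
  apply M.const
  refine ⟨?_, M.int f hf 0⟩
  rw [mem_K0_iff]
  intro τ hτ
  have h1 := M.equiv f hf ⟨τ, hτ⟩ 0
  rw [smul_zero] at h1
  exact h1.symm

theorem comp_nsmul_mem (M : Model A W) (n : ℕ) : ∀ f ∈ M.carrier,
    (fun w => f (n • w)) ∈ M.carrier := by
  induction n with
  | zero =>
    intro f hf
    simp only [zero_smul]
    exact const_zero_mem M hf
  | succ n ih =>
    intro f hf
    obtain ⟨m, g, h, hg, hh, hfgh⟩ := M.comul f hf
    have h1 : (fun w => f ((n + 1) • w)) = ∑ i, (fun w => g i (n • w)) * h i := by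
      funext w
      rw [succ_nsmul, hfgh, Finset.sum_apply]
      rfl
    rw [h1]
    exact sum_mem fun i _ => mul_mem (ih (g i) (hg i)) (hh i)

/-- induction on `n`; `f ((n+1) w) = ∑ g i (n w) * h i w`. -/
theorem pair_pow_sub (M : Model A W) {κ : A.ValueGroup} {x : AddMonoidAlgebra Qb W}
    (hx : InC M.fam 1 x) (hone : A.valuation (pair x 1 - 1) ≤ κ) (hmul : MulMod M κ x) (n : ℕ) :
    ∀ f ∈ M.carrier, A.valuation (pair (x ^ n) f - pair x (fun w => f (n • w))) ≤ κ := by
  have hx' := inC_fam_iff.1 hx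
  induction n with
  | zero =>
    intro f hf
    simp only [pow_zero, zero_smul, pair_one]
    rw [pair_const]
    have e : f 0 - f 0 * pair x 1 = - (f 0 * (pair x 1 - 1)) := by ring
    rw [e, Valuation.map_neg, map_mul]
    calc A.valuation (f 0) * A.valuation (pair x 1 - 1)
        ≤ 1 * κ := mul_le_mul' ((A.valuation_le_one_iff _).2 (M.int f hf 0)) hone
      _ = κ := one_mul κ
  | succ n ih =>
    intro f hf
    obtain ⟨m, g, h, hg, hh, hfgh⟩ := M.comul f hf
    have h1 : pair (x ^ (n + 1)) f = ∑ i, pair (x ^ n) (g i) * pair x (h i) := by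
      rw [pow_succ]
      exact pair_mul_of_comul _ _ hfgh
    have h2 : pair x (fun w => f ((n + 1) • w)) =
        ∑ i, pair x ((fun w => g i (n • w)) * h i) := by
      have h3 : (fun w => f ((n + 1) • w)) =
          fun w => ∑ i, ((fun w => g i (n • w)) * h i) w := by
        funext w
        rw [succ_nsmul, hfgh]
        rfl
      rw [h3, pair_sum_right]
    rw [h1, h2, ← Finset.sum_sub_distrib]
    apply Valuation.map_sum_le
    intro i _
    have e : pair (x ^ n) (g i) * pair x (h i) - pair x ((fun w => g i (n • w)) * h i) =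
        (pair (x ^ n) (g i) - pair x (fun w => g i (n • w))) * pair x (h i) -
          (pair x ((fun w => g i (n • w)) * h i) -
            pair x (fun w => g i (n • w)) * pair x (h i)) := by ring
    rw [e]
    apply Valuation.map_sub_le
    · rw [map_mul]
      calc A.valuation (pair (x ^ n) (g i) - pair x (fun w => g i (n • w))) *
            A.valuation (pair x (h i))
          ≤ κ * 1 := mul_le_mul' (ih (g i) (hg i)) (hx' (h i) (hh i))
        _ = κ := mul_one κ
    · exact hmul _ (comp_nsmul_mem M n (g i) (hg i)) _ (hh i)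

theorem inC_pow_sub_one (M : Model A W) (hpW : ∀ w : W, p • w = 0) {κ : A.ValueGroup}
    {x : AddMonoidAlgebra Qb W} (hx : InC M.fam 1 x) (hone : A.valuation (pair x 1 - 1) ≤ κ)
    (hmul : MulMod M κ x) : InC M.fam κ (x ^ p - 1) := by
  rw [inC_fam_iff]
  intro f hf
  have h1 := pair_pow_sub M hx hone hmul p f hf
  have h2 : (fun w => f (p • w)) = fun _ => f 0 := by
    funext w
    rw [hpW]
  rw [h2, pair_const] at h1
  rw [pair_sub_left, pair_one]
  have e : pair (x ^ p) f - f 0 =
      (pair (x ^ p) f - f 0 * pair x 1) + f 0 * (pair x 1 - 1) := by ring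
  rw [e]
  apply Valuation.map_add_le _ h1
  rw [map_mul]
  calc A.valuation (f 0) * A.valuation (pair x 1 - 1)
      ≤ 1 * κ := mul_le_mul' ((A.valuation_le_one_iff _).2 (M.int f hf 0)) hone
    _ = κ := one_mul κ

end Fermat.Agent.S56.Flat.Fon
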