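/-
S56 / FLAT / F1 "Fontaine lemma" (architect helper53): `Flat/Fon/Lift.lean`.
-/
import Fermat.Agent.S56.Flat.Fon.Improve
import Fermat.Agent.S56.Flat.Fon.Pullback
import Fermat.Agent.S56.Flat.Fon.Mult
import Fermat.Agent.S56.Flat.Fon.Final

set_option autoImplicit false

namespace Fermat.Agent.S56.Flat.Fon

open Fermat.Agent.Lib.InertiaField

variable {A : ValuationSubring Qb} {p : ℕ}
variable {W : Type} [AddCommGroup W] [DistribMulAction ↥(Iner A) W]

/-! ### L13  `Flat/Fon/Lift.lean`  F1 (ii) for measures -/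

theorem lift_measure (hp : p.Prime) (hA : A.LiesOverPrime p) [Finite W] (M : Model A W)
    (hpW : ∀ w : W, p • w = 0) {c : Qb} (hc : Small A p c) (x : AddMonoidAlgebra Qb W)
    (hint : InC M.fam 1 x)
    (hone : A.valuation (pair x 1 - 1) ≤ A.valuation (p : Qb) * A.valuation c)
    (hmul : MulMod M (A.valuation (p : Qb) * A.valuation c) x) :
    ∃ w : W, ∀ f ∈ M.carrier, A.valuation (pair x f - f w) ≤ A.valuation c := by
  have hP1 : A.valuation (p : Qb) ≤ 1 := (A.valuation_le_one_iff _).2 (natCast_mem A p)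
  have hc1 : A.valuation c < 1 := by
    by_contra hcon
    rw [not_lt] at hcon
    have h2 : A.valuation c ^ (p - 1) < 1 := lt_of_lt_of_le hc hP1
    exact absurd (one_le_pow₀ hcon) (not_le.2 h2)
  have hPc : A.valuation (p : Qb) * A.valuation c ≤ A.valuation c := mul_le_of_le_one_left' hP1
  have hxp : InC M.fam (A.valuation (p : Qb) * A.valuation c) (x ^ p - 1) :=
    inC_pow_sub_one M hpW hint hone hmul
  obtain ⟨D, hD0, hDA, hD⟩ := exists_disc M
  have hvD0 : A.valuation D ≠ 0 := (Valuation.ne_zero_iff _).2 hD0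
  have hvD1 : A.valuation D ≤ 1 := (A.valuation_le_one_iff _).2 hDA
  have h1 : A.valuation (pair x 1 - 1) < 1 := lt_of_le_of_lt (hone.trans hPc) hc1
  rcases eq_or_ne c 0 with rfl | hc0
  · rw [map_zero, mul_zero] at hmul
    obtain ⟨w, hw⟩ := hD 0 x zero_le_one hint hmul h1
    refine ⟨w, fun f hf => ?_⟩
    have h2 := le_antisymm (hw f hf) zero_le
    rcases mul_eq_zero.1 h2 with h3 | h3
    · exact absurd h3 hvD0
    · rw [h3]
      exact zero_le
  · have hvc0 : A.valuation c ≠ 0 := (Valuation.ne_zero_iff _).2 hc0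
    have hτ : A.valuation c * A.valuation D ≠ 0 := mul_ne_zero hvc0 hvD0
    have hτc : A.valuation c * A.valuation D ≤ A.valuation c := mul_le_of_le_one_right' hvD1
    obtain ⟨x', hx'1, hx'x, hx'p⟩ := improve hp hA hc hτ hint hxp
    have hm_c : MulMod M (A.valuation c) x := fun f hf g hg => (hmul f hf g hg).trans hPc
    have hm' : MulMod M (A.valuation c) x' := MulMod.of_sub hc1.le hint hx'1 hx'x hm_c
    have hmτ : MulMod M (A.valuation c * A.valuation D) x' :=
      mulMod_of_pow hp hA M hc hτ hτc hx'1 hx'p hm'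
    have hdiff : ∀ f ∈ M.carrier, A.valuation (pair (x' - x) f) ≤ A.valuation c :=
      inC_fam_iff.1 hx'x
    have h1' : A.valuation (pair x' 1 - 1) < 1 := by
      have e : pair x' 1 - 1 = pair (x' - x) 1 + (pair x 1 - 1) := by
        rw [pair_sub_left]
        ring
      rw [e]
      exact Valuation.map_add_lt _ (lt_of_le_of_lt (hdiff 1 M.carrier.one_mem) hc1) h1
    obtain ⟨w, hw⟩ := hD _ x' (hτc.trans hc1.le) hx'1 hmτ h1'
    refine ⟨w, fun f hf => ?_⟩
    have h2 : A.valuation (pair x' f - f w) ≤ A.valuation c := by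
      have h3 := hw f hf
      rw [mul_comm] at h3
      exact le_of_mul_le_mul_right h3 (zero_lt_iff.2 hvD0)
    have e : pair x f - f w = (pair x' f - f w) - pair (x' - x) f := by
      rw [pair_sub_left]
      ring
    rw [e]
    exact Valuation.map_sub_le _ h2 (hdiff f hf)

end Fermat.Agent.S56.Flat.Fon
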