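/-
S56 / FLAT / F1 "Fontaine lemma" (architect helper53): `Flat/Fon/Main.lean`.
The two exports, `lift_point` modulo the representability of the functional by a measure
(`Model.exists_rep`, block FM of helper116).
-/
import Fermat.Agent.S56.Flat.Fon.Inj
import Fermat.Agent.S56.Flat.Fon.Lift

set_option autoImplicit false

namespace Fermat.Agent.S56.Flat

open Fermat.Agent.Lib.InertiaField

variable {A : ValuationSubring Qb} {p : ℕ}
variable {W : Type} [AddCommGroup W] [DistribMulAction ↥(Iner A) W]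

/-- F1 (i): points congruent modulo `c`, `v(c) > 1/(p-1)`, are equal. -/
theorem Model.eq_of_cong (hp : p.Prime) (hA : A.LiesOverPrime p) [Finite W] (M : Model A W)
    (hpW : ∀ w : W, p • w = 0) {c : Qb} (hc : Small A p c) {w w' : W} (h : M.Cong c w w') :
    w = w' :=
  Fon.eq_of_cong hp hA M hpW hc h

/-- F1 (ii) for a functional which is represented by a measure. -/
theorem Model.lift_point_of_rep (hp : p.Prime) (hA : A.LiesOverPrime p) [Fintype W]
    (M : Model A W) (hpW : ∀ w : W, p • w = 0) {c : Qb} (hc : Small A p c) (φ : (W → Qb) → Qb)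
    (hrep : ∃ a : W → Qb, ∀ f ∈ M.carrier, φ f = ∑ w, a w * f w)
    (hint : ∀ f ∈ M.carrier, φ f ∈ A)
    (hone : A.valuation (φ 1 - 1) ≤ A.valuation ((p : Qb) * c))
    (hmul : ∀ f ∈ M.carrier, ∀ g ∈ M.carrier,
      A.valuation (φ (f * g) - φ f * φ g) ≤ A.valuation ((p : Qb) * c)) :
    ∃ w : W, ∀ f ∈ M.carrier, A.valuation (φ f - f w) ≤ A.valuation c := by
  obtain ⟨a, ha⟩ := hrep
  obtain ⟨x, hx⟩ := Fon.exists_pair_eq a
  have hφ : ∀ f ∈ M.carrier, φ f = Fon.pair x f := fun f hf => by rw [ha f hf, hx]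
  rw [map_mul] at hone hmul
  obtain ⟨w, hw⟩ := Fon.lift_measure hp hA M hpW hc x
    (Fon.inC_fam_iff.mpr fun f hf => by
      rw [← hφ f hf]; exact (A.valuation_le_one_iff _).mpr (hint f hf))
    (by rw [← hφ 1 (one_mem _)]; exact hone)
    (fun f hf g hg => by
      rw [← hφ f hf, ← hφ g hg, ← hφ (f * g) (mul_mem hf hg)]; exact hmul f hf g hg)
  exact ⟨w, fun f hf => by rw [hφ f hf]; exact hw f hf⟩

end Fermat.Agent.S56.Flat
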