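/-
S56 / FLAT / F1 "Fontaine lemma" (architect helper53): `Flat/Fon/LiftPoint.lean`.
The second export `Model.lift_point`, verbatim (`lift_point_of_rep` + `Model.exists_rep`).
Import this file to get both exports (`Model.eq_of_cong` is in `Fon/Main.lean`).
-/
import Fermat.Agent.S56.Flat.Fon.Main
import Fermat.Agent.S56.Flat.Mod.Rep

set_option autoImplicit false

namespace Fermat.Agent.S56.Flat

open Fermat.Agent.Lib.InertiaField

variable {A : ValuationSubring Qb} {p : ℕ}
variable {W : Type} [AddCommGroup W] [DistribMulAction ↥(Iner A) W]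

/-- F1 (ii): an approximate point modulo `p c`, `v(c) > 1/(p-1)`, is congruent modulo `c` to a
point. -/
theorem Model.lift_point (hp : p.Prime) (hA : A.LiesOverPrime p) [Finite W] (M : Model A W)
    (hpW : ∀ w : W, p • w = 0) {c : Qb} (hc : Small A p c) (φ : (W → Qb) → Qb)
    (hadd : ∀ f ∈ M.carrier, ∀ g ∈ M.carrier, φ (f + g) = φ f + φ g)
    (hsmul : ∀ a : Qb, InA0 A a → ∀ f ∈ M.carrier, φ (fun w => a * f w) = a * φ f)
    (hint : ∀ f ∈ M.carrier, φ f ∈ A)
    (hone : A.valuation (φ 1 - 1) ≤ A.valuation ((p : Qb) * c))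
    (hmul : ∀ f ∈ M.carrier, ∀ g ∈ M.carrier,
      A.valuation (φ (f * g) - φ f * φ g) ≤ A.valuation ((p : Qb) * c)) :
    ∃ w : W, ∀ f ∈ M.carrier, A.valuation (φ f - f w) ≤ A.valuation c := by
  have : Fintype W := Fintype.ofFinite W
  exact M.lift_point_of_rep hp hA hpW hc φ (M.exists_rep hp hA φ hadd hsmul) hint hone hmul

end Fermat.Agent.S56.Flat
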