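/-
S56 / FLAT / F1 (i), independent proof by characters (helper272).

Every character `χ : W → Qb` is an `A`-linear combination of a basis `F` of the order `M`:
write `χ = ∑ l k • F k`; comparing the coordinates of `χ (w + w') = χ w * χ w'` in the basis
`F i ⊗ F j` gives `l i * l j = ∑ k, l k * C k`, `C k ∈ A`; at an index where `v (l i)` is maximal
this reads `v (l i) ^ 2 ≤ v (l i)`.  Hence `χ w - χ w'` is small when `w`, `w'` are congruent, whereas
`v (ζ - 1) ^ (p - 1) = v p` for a nontrivial `p`-th root of unity.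
-/
import Fermat.Agent.S56.Flat.Mod.Basis1
import Fermat.Agent.S56.Flat.Mod.Basis2
import Fermat.Agent.S56.Flat.Mod.Basis3
import Fermat.Agent.S56.Flat.Depth.OrbitVal

set_option autoImplicit false

namespace Fermat.Agent.S56.Flat

open Fermat.Agent.Lib.InertiaField

variable {A : ValuationSubring Qb} {p : ℕ}
variable {W : Type} [AddCommGroup W] [DistribMulAction ↥(Iner A) W]

namespace FonChar

/-- the comultiplication of functions, as a linear map -/
def comulL (W : Type) [AddCommGroup W] : (W → Qb) →ₗ[Qb] (W → W → Qb) where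
  toFun f := fun w w' => f (w + w')
  map_add' _ _ := rfl
  map_smul' _ _ := rfl

/-- the basis of the space of functions given by a basis of the order -/
noncomputable def basis [Finite W] {M : Model A W} {n : ℕ} {F : Fin n → W → Qb}
    (hF : M.IsBasis F) : Module.Basis (Fin n) Qb (W → Qb) :=
  Module.Basis.mk (v := F)
    (by
      rw [Fintype.linearIndependent_iff]
      intro g hg i
      exact hF.indep_Qb g (fun w => by simpa [Finset.sum_apply] using congrFun hg w) i)
    (by
      intro G _
      obtain ⟨l, hl⟩ := hF.span_Qb G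
      rw [Submodule.mem_span_range_iff_exists_fun]
      exact ⟨l, funext fun w => by simp [hl w, Finset.sum_apply]⟩)

theorem basis_apply [Finite W] {M : Model A W} {n : ℕ} {F : Fin n → W → Qb}
    (hF : M.IsBasis F) (i : Fin n) : basis hF i = F i := Module.Basis.mk_apply _ _ i

/-- the coordinates of an element of the order are integral -/
theorem coord_mem [Finite W] {M : Model A W} {n : ℕ} {F : Fin n → W → Qb}
    (hF : M.IsBasis F) {f : W → Qb} (hf : f ∈ M.carrier) (i : Fin n) :
    (basis hF).coord i f ∈ A := by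
  obtain ⟨a, ha, hfa⟩ := hF.gen f hf
  have e : f = ∑ k, a k • basis hF k := by
    funext w
    simp [hfa w, Finset.sum_apply, basis_apply]
  rw [e, Module.Basis.coord_apply, Module.Basis.repr_sum_self]
  exact (ha i).2

/-- the coordinate `(i, j)` of `f (w + w')` -/
noncomputable def Phi [Finite W] {M : Model A W} {n : ℕ} {F : Fin n → W → Qb}
    (hF : M.IsBasis F) (i j : Fin n) : (W → Qb) →ₗ[Qb] Qb :=
  (basis hF).coord i ∘ₗ ((basis hF).coord j).compLeft W ∘ₗ comulL W

theorem Phi_mem [Finite W] {M : Model A W} {n : ℕ} {F : Fin n → W → Qb}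
    (hF : M.IsBasis F) (i j : Fin n) {f : W → Qb} (hf : f ∈ M.carrier) : Phi hF i j f ∈ A := by
  obtain ⟨m, g, h, hg, hh, hgh⟩ := M.comul f hf
  have e1 : ((basis hF).coord j).compLeft W (comulL W f)
      = ∑ t, (basis hF).coord j (h t) • g t := by
    funext w
    have : comulL W f w = ∑ t, g t w • h t := by
      funext w'
      simp [comulL, hgh w w', Finset.sum_apply]
    rw [LinearMap.compLeft_apply, Function.comp_apply, this, map_sum, Finset.sum_apply]
    refine Finset.sum_congr rfl fun t _ => ?_
    rw [map_smul, Pi.smul_apply, smul_eq_mul, smul_eq_mul, mul_comm]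
  rw [Phi, LinearMap.comp_apply, LinearMap.comp_apply, e1, map_sum]
  refine sum_mem fun t _ => ?_
  rw [map_smul, smul_eq_mul]
  exact mul_mem (coord_mem hF (hh t) j) (coord_mem hF (hg t) i)

theorem Phi_char [Finite W] {M : Model A W} {n : ℕ} {F : Fin n → W → Qb}
    (hF : M.IsBasis F) (i j : Fin n) {χ : W → Qb} (hχ : ∀ w w', χ (w + w') = χ w * χ w') :
    Phi hF i j χ = (basis hF).coord i χ * (basis hF).coord j χ := by
  have e1 : ((basis hF).coord j).compLeft W (comulL W χ) = (basis hF).coord j χ • χ := by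
    funext w
    have : comulL W χ w = χ w • χ := by
      funext w'
      simp [comulL, hχ w w']
    rw [LinearMap.compLeft_apply, Function.comp_apply, this, map_smul, Pi.smul_apply, smul_eq_mul,
      smul_eq_mul, mul_comm]
  rw [Phi, LinearMap.comp_apply, LinearMap.comp_apply, e1, map_smul, smul_eq_mul, mul_comm]

/-- **the coordinates of a character are integral** -/
theorem coord_char_mem [Finite W] {M : Model A W} {n : ℕ} {F : Fin n → W → Qb}
    (hF : M.IsBasis F) {χ : W → Qb} (hχ : ∀ w w', χ (w + w') = χ w * χ w') (i : Fin n) :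
    (basis hF).coord i χ ∈ A := by
  classical
  set l : Fin n → Qb := fun k => (basis hF).coord k χ with hl
  obtain ⟨i₀, -, hi₀⟩ := Finset.exists_max_image Finset.univ (fun k => A.valuation (l k))
    ⟨i, Finset.mem_univ i⟩
  have hexp : χ = ∑ k, l k • basis hF k := ((basis hF).sum_repr χ).symm
  have h1 : l i₀ * l i₀ = ∑ k, l k * Phi hF i₀ i₀ (F k) := by
    rw [← Phi_char hF i₀ i₀ hχ]
    conv_lhs => rw [hexp]
    rw [map_sum]
    exact Finset.sum_congr rfl fun k _ => by rw [map_smul, smul_eq_mul, basis_apply]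
  have h2 : A.valuation (l i₀ * l i₀) ≤ A.valuation (l i₀) := by
    rw [h1]
    refine Valuation.map_sum_le _ fun k _ => ?_
    rw [map_mul]
    calc A.valuation (l k) * A.valuation (Phi hF i₀ i₀ (F k))
        ≤ A.valuation (l k) * 1 :=
          mul_le_mul_right ((A.valuation_le_one_iff _).2 (Phi_mem hF i₀ i₀ (hF.mem k))) _
      _ = A.valuation (l k) := mul_one _
      _ ≤ A.valuation (l i₀) := hi₀ k (Finset.mem_univ k)
  have h3 : A.valuation (l i₀) ≤ 1 := by
    by_cases h0 : A.valuation (l i₀) = 0
    · rw [h0]; exact zero_le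
    · rw [map_mul] at h2
      by_contra hcon
      rw [not_le] at hcon
      have : A.valuation (l i₀) * 1 < A.valuation (l i₀) * A.valuation (l i₀) :=
        (mul_lt_mul_iff_right₀ (zero_lt_iff.2 h0)).2 hcon
      rw [mul_one] at this
      exact absurd h2 (not_le.2 this)
  exact (A.valuation_le_one_iff _).1 ((hi₀ i (Finset.mem_univ i)).trans h3)

/-- congruent points are congruent for the characters -/
theorem val_char_sub_le (hp : p.Prime) (hA : A.LiesOverPrime p) [Finite W] (M : Model A W) {c : Qb}
    {w w' : W} (h : M.Cong c w w') {χ : W → Qb} (hχ : ∀ w w', χ (w + w') = χ w * χ w') :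
    A.valuation (χ w - χ w') ≤ A.valuation c := by
  obtain ⟨n, F, hF⟩ := M.exists_isBasis hp hA
  have hexp : χ = ∑ k, (basis hF).coord k χ • basis hF k := ((basis hF).sum_repr χ).symm
  have e : χ w - χ w' = ∑ k, (basis hF).coord k χ * (F k w - F k w') := by
    conv_lhs => rw [hexp]
    simp only [Finset.sum_apply, Pi.smul_apply, smul_eq_mul, basis_apply, mul_sub,
      Finset.sum_sub_distrib]
  rw [e]
  refine Valuation.map_sum_le _ fun k _ => ?_
  rw [map_mul]
  calc A.valuation ((basis hF).coord k χ) * A.valuation (F k w - F k w')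
      ≤ 1 * A.valuation (F k w - F k w') :=
        mul_le_mul_left ((A.valuation_le_one_iff _).2 (coord_char_mem hF hχ k)) _
    _ = A.valuation (F k w - F k w') := one_mul _
    _ ≤ A.valuation c := h _ (hF.mem k)

/-- characters separate the points -/
theorem exists_char [Finite W] {x : W} (hx : x ≠ 0) :
    ∃ χ : W → Qb, (∀ w w', χ (w + w') = χ w * χ w') ∧ χ 0 = 1 ∧ χ x ≠ 1 := by
  haveI : NeZero (Monoid.exponent (Multiplicative W)) := ⟨Monoid.exponent_ne_zero_of_finite⟩
  obtain ⟨φ, hφ⟩ := CommGroup.exists_apply_ne_one_of_hasEnoughRootsOfUnity (Multiplicative W) Qb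
    (a := Multiplicative.ofAdd x) (by simpa using hx)
  refine ⟨fun w => (φ (Multiplicative.ofAdd w) : Qb), fun w w' => ?_, ?_, ?_⟩
  · show (φ (Multiplicative.ofAdd (w + w')) : Qb) = _
    rw [ofAdd_add, map_mul, Units.val_mul]
  · show (φ (Multiplicative.ofAdd (0 : W)) : Qb) = 1
    rw [ofAdd_zero, map_one, Units.val_one]
  · intro h
    exact hφ (Units.ext h)

end FonChar

/-- F1 (i): points congruent modulo `c`, `v(c) > 1/(p-1)`, are equal (proof by characters). -/
theorem Model.eq_of_cong_char (hp : p.Prime) (hA : A.LiesOverPrime p) [Finite W] (M : Model A W)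
    (hpW : ∀ w : W, p • w = 0) {c : Qb} (hc : Small A p c) {w w' : W} (h : M.Cong c w w') :
    w = w' := by
  by_contra hne
  obtain ⟨χ, hχ, hχ0, hχx⟩ := FonChar.exists_char (sub_ne_zero.2 hne)
  have hpow : ∀ (x : W) (k : ℕ), χ (k • x) = χ x ^ k := by
    intro x k
    induction k with
    | zero => rw [zero_smul, pow_zero, hχ0]
    | succ k ih => rw [succ_nsmul, hχ, ih, pow_succ]
  have hroot : ∀ x : W, χ x ^ p = 1 := fun x => by rw [← hpow, hpW, hχ0]
  have h1 := FonChar.val_char_sub_le hp hA M h hχ
  have e : χ w - χ w' = (χ (w - w') - 1) * χ w' := by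
    rw [sub_mul, one_mul, ← hχ, sub_add_cancel]
  have hv : A.valuation (χ w') = 1 :=
    Hensel.valuation_eq_one_of_pow A hp.ne_zero (by rw [hroot, map_one])
  rw [e, map_mul, hv, mul_one] at h1
  have h2 := val_zeta_sub_one hp hA (χ (w - w')) (hroot _) hχx
  have h3 : A.valuation (p : Qb) ≤ A.valuation c ^ (p - 1) := by
    rw [← h2]
    exact pow_le_pow_left₀ zero_le h1 _
  exact absurd h3 (not_le.2 hc)

end Fermat.Agent.S56.Flat
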